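import Fermat.Agent.S14.Th.Basic

/-!
# S14 (Th) package Th-6 : the relation in the class group coming from a principal ideal
-/

set_option autoImplicit false
set_option linter.unusedSectionVars false
set_option linter.style.haveILetI false

namespace Fermat.Agent.S14.Th

open NumberField UniqueFactorizationMonoid
open scoped nonZeroDivisors Pointwise

section General

variable {R : Type*} [CommRing R] [IsDedekindDomain R]

theorem classRel_mem_pow_iff (P : Ideal R) [hPp : P.IsPrime] (hP : P ≠ ⊥) {x : R} (hx : x ≠ 0)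
    (n : ℕ) : x ∈ P ^ n ↔ n ≤ (normalizedFactors (Ideal.span {x})).count P := by
  classical
  have hx' : Ideal.span {x} ≠ 0 := by
    simpa [Ideal.zero_eq_bot, Ideal.span_singleton_eq_bot] using hx
  have hirr : Irreducible P := (Ideal.prime_of_isPrime hP hPp).irreducible
  rw [← Ideal.dvd_span_singleton, pow_dvd_iff_le_emultiplicity,
    emultiplicity_eq_count_normalizedFactors hirr hx', normalize_eq]
  exact_mod_cast Iff.rfl

theorem classRel_exactPow_count (P : Ideal R) [hPp : P.IsPrime] (hP : P ≠ ⊥) {x : R} (hx : x ≠ 0) :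
    ExactPow P x ((normalizedFactors (Ideal.span {x})).count P) := by
  refine ⟨(classRel_mem_pow_iff P hP hx _).2 le_rfl, fun h => ?_⟩
  have := (classRel_mem_pow_iff P hP hx _).1 h
  omega

theorem classRel_count_eq (P : Ideal R) [hPp : P.IsPrime] (hP : P ≠ ⊥) {x : R} (hx : x ≠ 0)
    {n : ℕ} (h : ExactPow P x n) : (normalizedFactors (Ideal.span {x})).count P = n := by
  have h1 := (classRel_mem_pow_iff P hP hx _).1 h.1
  have h2 : ¬ (n + 1 ≤ (normalizedFactors (Ideal.span {x})).count P) :=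
    fun h' => h.2 ((classRel_mem_pow_iff P hP hx _).2 h')
  omega

/-- extension by `1` of a monoid hom on nonzero ideals -/
noncomputable def classRelExt {G : Type*} [CommGroup G] (φ : (Ideal R)⁰ →* G) (I : Ideal R) : G :=
  open Classical in if h : I ∈ (Ideal R)⁰ then φ ⟨I, h⟩ else 1

theorem classRelExt_coe {G : Type*} [CommGroup G] (φ : (Ideal R)⁰ →* G) (I : (Ideal R)⁰) :
    classRelExt φ (I : Ideal R) = φ I := by
  simp [classRelExt]

theorem classRelExt_multiset_prod {G : Type*} [CommGroup G] (φ : (Ideal R)⁰ →* G)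
    (s : Multiset (Ideal R)) (hs : ∀ I ∈ s, I ∈ (Ideal R)⁰) :
    classRelExt φ s.prod = (s.map (classRelExt φ)).prod := by
  induction s using Multiset.induction_on with
  | empty =>
    have : classRelExt φ (1 : Ideal R) = φ 1 := classRelExt_coe φ 1
    simpa using this
  | cons a t ih =>
    have ha : a ∈ (Ideal R)⁰ := hs a (Multiset.mem_cons_self a t)
    have ht : ∀ I ∈ t, I ∈ (Ideal R)⁰ := fun I hI => hs I (Multiset.mem_cons_of_mem hI)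
    have htp : t.prod ∈ (Ideal R)⁰ := Submonoid.multiset_prod_mem _ _ ht
    rw [Multiset.prod_cons, Multiset.map_cons, Multiset.prod_cons, ← ih ht]
    have h1 : classRelExt φ (a * t.prod) = φ ⟨a * t.prod, mul_mem ha htp⟩ := dif_pos _
    have h2 : (⟨a * t.prod, mul_mem ha htp⟩ : (Ideal R)⁰) = ⟨a, ha⟩ * ⟨t.prod, htp⟩ :=
      Subtype.ext rfl
    have h3 : classRelExt φ a = φ ⟨a, ha⟩ := dif_pos _
    have h4 : classRelExt φ t.prod = φ ⟨t.prod, htp⟩ := dif_pos _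
    rw [h1, h2, map_mul, h3, h4]

theorem classRelExt_span {G : Type*} [CommGroup G] (φ : (Ideal R)⁰ →* G) {x : R} (hx : x ≠ 0) :
    classRelExt φ (Ideal.span {x}) =
      ∏ P ∈ (normalizedFactors (Ideal.span {x})).toFinset,
        classRelExt φ P ^ (normalizedFactors (Ideal.span {x})).count P := by
  classical
  have hx' : Ideal.span {x} ≠ ⊥ := by
    simpa [Ideal.span_singleton_eq_bot] using hx
  conv_lhs => rw [← Ideal.prod_normalizedFactors_eq_self hx']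
  rw [classRelExt_multiset_prod, Finset.prod_multiset_map_count]
  intro I hI
  exact mem_nonZeroDivisors_of_ne_zero (prime_of_normalized_factor I hI).ne_zero

end General

section NF1

variable {K : Type*} [Field K] [NumberField K] {p : ℕ} [Fact p.Prime]
   {r : ℕ} [Fact r.Prime]

theorem classRel_exists_int (𝔯 : Ideal (𝓞 K)) (hr : Ideal.absNorm 𝔯 = r) (y : 𝓞 K) :
    ∃ m : ℤ, y - (m : 𝓞 K) ∈ 𝔯 := by
  have hcard : Nat.card (𝓞 K ⧸ 𝔯) = r := by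
    rw [← hr, Ideal.absNorm_apply, Submodule.cardQuot_apply]
  have h1 : (1 : 𝓞 K ⧸ 𝔯) ≠ 0 := by
    intro h
    have htop : 𝔯 = ⊤ := by
      rw [Ideal.eq_top_iff_one, ← Ideal.Quotient.eq_zero_iff_mem, map_one, h]
    rw [htop, Ideal.absNorm_top] at hr
    exact (Fact.out : r.Prime).one_lt.ne hr
  have := mem_zmultiples_of_prime_card hcard h1 (g' := Ideal.Quotient.mk 𝔯 y)
  obtain ⟨m, hm⟩ := AddSubgroup.mem_zmultiples_iff.1 this
  refine ⟨m, ?_⟩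
  rw [← Ideal.Quotient.eq, ← hm]
  simp

theorem classRel_p_notMem (𝔯 : Ideal (𝓞 K)) [h𝔯 : 𝔯.IsPrime] (hr : Ideal.absNorm 𝔯 = r)
    (hrp : r ≠ p) : (p : 𝓞 K) ∉ 𝔯 := by
  intro hp
  have hrmem : (r : 𝓞 K) ∈ 𝔯 := hr ▸ Ideal.absNorm_mem 𝔯
  have hcop : IsCoprime (p : ℤ) (r : ℤ) := by
    rw [Nat.isCoprime_iff_coprime]
    exact (Nat.coprime_primes Fact.out Fact.out).2 (Ne.symm hrp)
  obtain ⟨a, b, hab⟩ := hcop
  apply h𝔯.ne_top
  rw [Ideal.eq_top_iff_one]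
  have : (1 : 𝓞 K) = (a : 𝓞 K) * (p : 𝓞 K) + (b : 𝓞 K) * (r : 𝓞 K) := by
    have := congrArg (Int.cast : ℤ → 𝓞 K) hab
    push_cast at this
    exact this.symm
  rw [this]
  exact 𝔯.add_mem (𝔯.mul_mem_left _ hp) (𝔯.mul_mem_left _ hrmem)

theorem classRel_isPrimitiveRoot_mk (𝔯 : Ideal (𝓞 K)) [h𝔯 : 𝔯.IsPrime]
    (hr : Ideal.absNorm 𝔯 = r) (hrp : r ≠ p) {ζ : 𝓞 K} (hζ : IsPrimitiveRoot ζ p) :
    IsPrimitiveRoot (Ideal.Quotient.mk 𝔯 ζ) p := by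
  have hp : p.Prime := Fact.out
  have h1 : (Ideal.Quotient.mk 𝔯 ζ) ^ p = 1 := by rw [← map_pow, hζ.pow_eq_one, map_one]
  have h2 : Ideal.Quotient.mk 𝔯 ζ ≠ 1 := by
    intro h
    have hsum := hζ.geom_sum_eq_zero hp.one_lt
    have := congrArg (Ideal.Quotient.mk 𝔯) hsum
    rw [map_sum] at this
    simp only [map_pow, h, one_pow, Finset.sum_const, Finset.card_range, map_zero,
      nsmul_eq_mul, mul_one] at this
    apply classRel_p_notMem 𝔯 hr hrp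
    rw [← Ideal.Quotient.eq_zero_iff_mem, map_natCast]
    exact this
  have := orderOf_eq_prime h1 h2
  exact this ▸ IsPrimitiveRoot.orderOf _

theorem classRel_pow_inj (𝔯 : Ideal (𝓞 K)) [h𝔯 : 𝔯.IsPrime]
    (hr : Ideal.absNorm 𝔯 = r) (hrp : r ≠ p) {ζ : 𝓞 K} (hζ : IsPrimitiveRoot ζ p)
    {b b' : ℕ} (hb : b < p) (hb' : b' < p) (h : ζ ^ b - ζ ^ b' ∈ 𝔯) : b = b' := by
  refine (classRel_isPrimitiveRoot_mk 𝔯 hr hrp hζ).pow_inj hb hb' ?_
  rw [← map_pow, ← map_pow, Ideal.Quotient.eq]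
  exact h

theorem classRel_injOn (𝔯 : Ideal (𝓞 K)) [h𝔯 : 𝔯.IsPrime]
    (hr : Ideal.absNorm 𝔯 = r) (hrp : r ≠ p) {ζ : 𝓞 K} (hζ : IsPrimitiveRoot ζ p)
    (σ : ℕ → (K ≃ₐ[ℚ] K)) (hσ : ∀ b ∈ Finset.Ico 1 p, sigO (σ b) (ζ ^ b) = ζ)
    {b b' : ℕ} (hb : b ∈ Finset.Ico 1 p) (hb' : b' ∈ Finset.Ico 1 p)
    (h : 𝔯.map (sigO (σ b) : 𝓞 K →+* 𝓞 K) = 𝔯.map (sigO (σ b') : 𝓞 K →+* 𝓞 K)) : b = b' := by
  obtain ⟨m, hm⟩ := classRel_exists_int 𝔯 hr (ζ ^ b)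
  have h1 : sigO (σ b) (ζ ^ b - (m : 𝓞 K)) ∈ 𝔯.map (sigO (σ b') : 𝓞 K →+* 𝓞 K) := by
    rw [← h]
    exact Ideal.mem_map_of_mem (sigO (σ b) : 𝓞 K →+* 𝓞 K) hm
  obtain ⟨z', hz', hz'e⟩ :=
    (Ideal.mem_map_iff_of_surjective (sigO (σ b') : 𝓞 K →+* 𝓞 K) (sigO (σ b')).surjective).1 h1
  have h2 : sigO (σ b') (z' + (m : 𝓞 K)) = sigO (σ b') (ζ ^ b') := by
    have hz'' : sigO (σ b') z' = sigO (σ b) (ζ ^ b - (m : 𝓞 K)) := hz'e
    rw [map_add, hz'', map_sub, hσ b hb, hσ b' hb', map_intCast, map_intCast]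
    ring
  have h3 := (sigO (σ b')).injective h2
  refine classRel_pow_inj 𝔯 hr hrp hζ (Finset.mem_Ico.1 hb).2 (Finset.mem_Ico.1 hb').2 ?_
  rw [← h3]
  have : ζ ^ b - (z' + (m : 𝓞 K)) = (ζ ^ b - (m : 𝓞 K)) - z' := by ring
  rw [this]
  exact 𝔯.sub_mem hm hz'

end NF1

section NF2

variable {K : Type*} [Field K] [NumberField K] {p : ℕ} [Fact p.Prime]
   [IsCyclotomicExtension {p} ℚ K] {r : ℕ} [Fact r.Prime]

omit [IsCyclotomicExtension {p} ℚ K] [Fact p.Prime] in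
theorem classRel_liesOver (𝔮 : Ideal (𝓞 K)) [h𝔮 : 𝔮.IsPrime] (hr : (r : 𝓞 K) ∈ 𝔮) :
    𝔮.LiesOver (Ideal.span {(r : ℤ)}) := by
  have hrprime : Prime (r : ℤ) := Nat.prime_iff_prime_int.1 Fact.out
  have hmax : (Ideal.span {(r : ℤ)}).IsMaximal :=
    ((Ideal.span_singleton_prime hrprime.ne_zero).2 hrprime).isMaximal
      (by simpa [Ideal.span_singleton_eq_bot] using hrprime.ne_zero)
  constructor
  refine hmax.eq_of_le (Ideal.IsPrime.under ℤ 𝔮).ne_top ?_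
  rw [Ideal.span_singleton_le_iff_mem, Ideal.mem_comap]
  simpa using hr

omit [IsCyclotomicExtension {p} ℚ K] [Fact p.Prime] in
theorem classRel_smul_eq_map (τ : K ≃ₐ[ℚ] K) (I : Ideal (𝓞 K)) :
    τ • I = I.map (sigO τ : 𝓞 K →+* 𝓞 K) := by
  rw [Ideal.pointwise_smul_def]
  congr 1

theorem classRel_exists_b (𝔯 : Ideal (𝓞 K)) [h𝔯 : 𝔯.IsPrime]
    (hr : Ideal.absNorm 𝔯 = r) {ζ : 𝓞 K} (hζ : IsPrimitiveRoot ζ p)
    (σ : ℕ → (K ≃ₐ[ℚ] K)) (hσ : ∀ b ∈ Finset.Ico 1 p, sigO (σ b) (ζ ^ b) = ζ)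
    (𝔮 : Ideal (𝓞 K)) [h𝔮 : 𝔮.IsPrime] (hq : (r : 𝓞 K) ∈ 𝔮) :
    ∃ b ∈ Finset.Ico 1 p, 𝔮 = 𝔯.map (sigO (σ b) : 𝓞 K →+* 𝓞 K) := by
  have hp : p.Prime := Fact.out
  haveI : NeZero p := ⟨hp.ne_zero⟩
  haveI : IsGalois ℚ K := IsCyclotomicExtension.isGalois {p} ℚ K
  have hrmem : (r : 𝓞 K) ∈ 𝔯 := hr ▸ Ideal.absNorm_mem 𝔯
  haveI := classRel_liesOver 𝔯 hrmem
  haveI := classRel_liesOver 𝔮 hq
  obtain ⟨τ, hτ⟩ := Ideal.exists_smul_eq_of_isGaloisGroup (Ideal.span {(r : ℤ)}) 𝔯 𝔮 (K ≃ₐ[ℚ] K)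
  rw [classRel_smul_eq_map] at hτ
  -- find b
  have hξ : ((sigO τ).symm ζ) ^ p = 1 := by rw [← map_pow, hζ.pow_eq_one, map_one]
  obtain ⟨b, hbp, hb⟩ := hζ.eq_pow_of_pow_eq_one hξ
  have hτb : sigO τ (ζ ^ b) = ζ := by rw [hb, RingEquiv.apply_symm_apply]
  have hb0 : b ≠ 0 := by
    rintro rfl
    rw [pow_zero, map_one] at hτb
    exact hζ.ne_one hp.one_lt hτb.symm
  have hbmem : b ∈ Finset.Ico 1 p := Finset.mem_Ico.2 ⟨Nat.one_le_iff_ne_zero.2 hb0, hbp⟩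
  refine ⟨b, hbmem, ?_⟩
  have hζK : IsPrimitiveRoot ((ζ : K) ^ b) p :=
    (hζ.map_of_injective (RingOfIntegers.coe_injective)).pow_of_coprime b
      ((Nat.coprime_comm.1 ((Nat.Prime.coprime_iff_not_dvd hp).2
        (Nat.not_dvd_of_pos_of_lt (Nat.pos_of_ne_zero hb0) hbp))))
  have heq : τ = σ b := by
    apply AlgEquiv.coe_toAlgHom_injective
    apply (hζK.powerBasis ℚ).algHom_ext
    rw [IsPrimitiveRoot.powerBasis_gen]
    have h1 := congrArg (fun y : 𝓞 K => (y : K)) (hτb.trans (hσ b hbmem).symm)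
    simpa using h1
  rw [← heq, hτ]

end NF2

section Main

variable {K : Type*} [Field K] [NumberField K] {p : ℕ} [Fact p.Prime]
  [IsCyclotomicExtension {p} ℚ K] {r : ℕ} [Fact r.Prime]

theorem classRel_pow_eq_one (g : Multiplicative (ZMod p)) {n : ℕ} (hn : p ∣ n) : g ^ n = 1 := by
  obtain ⟨k, rfl⟩ := hn
  rw [pow_mul]
  have : g ^ p = 1 := by
    apply Multiplicative.toAdd.injective
    rw [toAdd_pow, toAdd_one, nsmul_eq_mul, CharP.cast_eq_zero, zero_mul]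
  rw [this, one_pow]

theorem class_relation {ζ : 𝓞 K} (hζ : IsPrimitiveRoot ζ p)
    (lam : ClassGroup (𝓞 K) →* Multiplicative (ZMod p))
    (𝔯 : (Ideal (𝓞 K))⁰) (h𝔯 : (𝔯 : Ideal (𝓞 K)).IsPrime)
    (hr : Ideal.absNorm (𝔯 : Ideal (𝓞 K)) = r) (hrp : r ≠ p)
    (σ : ℕ → (K ≃ₐ[ℚ] K)) (hσ : ∀ b ∈ Finset.Ico 1 p, sigO (σ b) (ζ ^ b) = ζ)
    (x : 𝓞 K) (hx : x ≠ 0) (c : ℕ → ℕ)
    (h1 : ∀ 𝔮 : Ideal (𝓞 K), 𝔮.IsPrime → 𝔮 ≠ ⊥ → (r : 𝓞 K) ∉ 𝔮 → ∀ n, ExactPow 𝔮 x n → p ∣ n)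
    (h2 : ∀ b ∈ Finset.Ico 1 p,
      ExactPow (Ideal.mapNonZero (sigO (σ b)) 𝔯 : Ideal (𝓞 K)) x (c b)) :
    ∏ b ∈ Finset.Ico 1 p, lam (ClassGroup.mk0 (Ideal.mapNonZero (sigO (σ b)) 𝔯)) ^ (c b) = 1 := by
  classical
  set φ : (Ideal (𝓞 K))⁰ →* Multiplicative (ZMod p) := lam.comp ClassGroup.mk0 with hφ
  have hxmem : Ideal.span {x} ∈ (Ideal (𝓞 K))⁰ :=
    mem_nonZeroDivisors_of_ne_zero (by simpa [Ideal.zero_eq_bot, Ideal.span_singleton_eq_bot])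
  have hone : classRelExt φ (Ideal.span {x}) = 1 := by
    have h : classRelExt φ (Ideal.span {x}) = φ ⟨Ideal.span {x}, hxmem⟩ := dif_pos _
    rw [h, hφ, MonoidHom.comp_apply]
    have : ClassGroup.mk0 (⟨Ideal.span {x}, hxmem⟩ : (Ideal (𝓞 K))⁰) = 1 :=
      (ClassGroup.mk0_eq_one_iff hxmem).2 ⟨⟨x, rfl⟩⟩
    rw [this, map_one]
  set N := normalizedFactors (Ideal.span {x}) with hN
  set S := N.toFinset with hS
  set F : ℕ → Ideal (𝓞 K) := fun b => (Ideal.mapNonZero (sigO (σ b)) 𝔯 : Ideal (𝓞 K)) with hF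
  set T := (Finset.Ico 1 p).image F with hT
  set f : Ideal (𝓞 K) → Multiplicative (ZMod p) := fun P => classRelExt φ P ^ N.count P with hf
  have hprimeF : ∀ b, (F b).IsPrime := fun b =>
    Ideal.map_isPrime_of_equiv (sigO (σ b))
  have hneF : ∀ b, F b ≠ ⊥ := fun b =>
    nonZeroDivisors.coe_ne_zero (Ideal.mapNonZero (sigO (σ b)) 𝔯)
  have e1 : ∏ P ∈ S, f P = ∏ P ∈ S ∪ T, f P := by
    refine Finset.prod_subset Finset.subset_union_left ?_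
    intro P _ hPS
    have : N.count P = 0 := Multiset.count_eq_zero.2 (fun h => hPS (Multiset.mem_toFinset.2 h))
    simp only [hf, this, pow_zero]
  have e2 : ∏ P ∈ T, f P = ∏ P ∈ S ∪ T, f P := by
    refine Finset.prod_subset Finset.subset_union_right ?_
    intro P hP hPT
    have hPS : P ∈ N := by
      rcases Finset.mem_union.1 hP with h | h
      · exact Multiset.mem_toFinset.1 h
      · exact absurd h hPT
    have hPprime : Prime P := prime_of_normalized_factor P hPS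
    haveI hPp : P.IsPrime := Ideal.isPrime_of_prime hPprime
    have hP0 : P ≠ ⊥ := hPprime.ne_zero
    have hrP : (r : 𝓞 K) ∉ P := by
      intro hrP
      obtain ⟨b, hb, hbe⟩ := classRel_exists_b (𝔯 : Ideal (𝓞 K)) hr hζ σ hσ P hrP
      exact hPT (Finset.mem_image.2 ⟨b, hb, hbe.symm⟩)
    exact classRel_pow_eq_one _ (h1 P hPp hP0 hrP _ (classRel_exactPow_count P hP0 hx))
  have e3 : ∏ P ∈ T, f P = ∏ b ∈ Finset.Ico 1 p, f (F b) := by
    refine Finset.prod_image ?_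
    intro b hb b' hb' h
    exact classRel_injOn (𝔯 : Ideal (𝓞 K)) hr hrp hζ σ hσ hb hb' h
  have e4 : ∀ b ∈ Finset.Ico 1 p,
      f (F b) = lam (ClassGroup.mk0 (Ideal.mapNonZero (sigO (σ b)) 𝔯)) ^ (c b) := by
    intro b hb
    haveI := hprimeF b
    have hc : N.count (F b) = c b := classRel_count_eq (F b) (hneF b) hx (h2 b hb)
    have hv : classRelExt φ (F b) = φ (Ideal.mapNonZero (sigO (σ b)) 𝔯) :=
      classRelExt_coe φ (Ideal.mapNonZero (sigO (σ b)) 𝔯)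
    simp only [hf]
    rw [hc, hv, hφ, MonoidHom.comp_apply]
  rw [← Finset.prod_congr rfl e4, ← e3, e2, ← e1, ← hone]
  exact (classRelExt_span φ hx).symm

end Main

end Fermat.Agent.S14.Th
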