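import Fermat.Agent.S14.Th.Field

/-!
# S14 (Th) package Th-4 : ramification in `F / K`
-/

set_option autoImplicit false

namespace Fermat.Agent.S14.Th

open NumberField

/-- a nonzero prime of `𝓞 F` lies over `span {ℓ}` for a rational prime `ℓ`. -/
theorem Ramif_exists_prime {F : Type*} [Field F] [NumberField F] (Q : Ideal (𝓞 F)) [Q.IsPrime]
    (hQ : Q ≠ ⊥) : ∃ ℓ : ℕ, ℓ.Prime ∧ Q.LiesOver (Ideal.span {(ℓ : ℤ)}) := by
  have h0 : Q.under ℤ ≠ ⊥ := Ideal.under_ne_bot ℤ hQ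
  have hpr : (Q.under ℤ).IsPrime := inferInstance
  obtain ⟨n, hn⟩ : ∃ n : ℤ, Q.under ℤ = Ideal.span {n} :=
    ⟨_, (Ideal.span_singleton_generator (Q.under ℤ)).symm⟩
  have hn0 : n ≠ 0 := by
    rintro rfl
    exact h0 (by rw [hn]; simp)
  have hnp : Prime n := by
    rw [hn] at hpr
    exact (Ideal.span_singleton_prime hn0).mp hpr
  refine ⟨n.natAbs, Int.prime_iff_natAbs_prime.mp hnp, ⟨?_⟩⟩
  rw [hn, Int.span_natAbs]

/-- a prime of `𝓞 F` containing the rational prime `r` lies over `span {r}`. -/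
theorem Ramif_liesOver_of_mem {F : Type*} [Field F] [NumberField F] (Q : Ideal (𝓞 F)) [Q.IsPrime]
    {r : ℕ} (hr : r.Prime) (h : (r : 𝓞 F) ∈ Q) : Q.LiesOver (Ideal.span {(r : ℤ)}) := by
  have : Fact r.Prime := ⟨hr⟩
  have hmax : (Ideal.span {(r : ℤ)}).IsMaximal := Int.ideal_span_isMaximal_of_prime r
  have hpr : (Q.under ℤ).IsPrime := inferInstance
  refine ⟨hmax.eq_of_le hpr.ne_top ?_⟩
  rw [Ideal.span_singleton_le_iff_mem, Ideal.mem_comap]
  simpa using h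

variable {K : Type*} [Field K] [NumberField K] {p : ℕ} [Fact p.Prime]
  [IsCyclotomicExtension {p} ℚ K]
  {r : ℕ} [Fact r.Prime] {F : Type*} [Field F] [NumberField F] [Algebra K F]
  [IsCyclotomicExtension {r} K F]

theorem ramificationIdx_of_notMem (hrp : r ≠ p) (Q : Ideal (𝓞 F)) [Q.IsPrime] (hQ : Q ≠ ⊥)
    (h : (r : 𝓞 F) ∉ Q) : Q.ramificationIdx (𝓞 K) = 1 := by
  have hp : p.Prime := Fact.out
  have hr : r.Prime := Fact.out
  obtain ⟨ℓ, hℓ, hlo⟩ := Ramif_exists_prime Q hQ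
  have : Fact ℓ.Prime := ⟨hℓ⟩
  have : IsCyclotomicExtension {p * r} ℚ F := isCyclotomicExtension_mul (K := K) hrp
  have : NeZero (p * r) := ⟨Nat.mul_ne_zero hp.ne_zero hr.ne_zero⟩
  have : NeZero p := ⟨hp.ne_zero⟩
  have : (Q.under (𝓞 K)).LiesOver (Ideal.span {(ℓ : ℤ)}) :=
    Ideal.LiesOver.tower_bot Q (Q.under (𝓞 K)) (Ideal.span {(ℓ : ℤ)})
  have htower := Ideal.ramificationIdx_tower (R := ℤ) (Q.under (𝓞 K)) Q
  have hℓr : ℓ ≠ r := by
    rintro rfl
    apply h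
    have : ((ℓ : ℤ)) ∈ Q.under ℤ := by
      rw [← hlo.over]; exact Ideal.mem_span_singleton_self _
    simpa [Ideal.mem_comap] using this
  by_cases hℓp : ℓ = p
  · subst hℓp
    have h1 : Q.ramificationIdx ℤ = ℓ ^ 0 * (ℓ - 1) :=
      IsCyclotomicExtension.Rat.ramificationIdx_eq (ℓ * r) (m := r) (p := ℓ) (k := 0) F Q (by ring)
        (fun hd => hℓr ((Nat.prime_dvd_prime_iff_eq hℓ hr).mp hd))
    have h2 : (Q.under (𝓞 K)).ramificationIdx ℤ = ℓ - 1 :=
      IsCyclotomicExtension.Rat.ramificationIdx_eq_of_prime ℓ K (Q.under (𝓞 K))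
    rw [h1, h2, pow_zero, one_mul] at htower
    have h3 : 0 < ℓ - 1 := by have := hℓ.two_le; omega
    exact (Nat.eq_of_mul_eq_mul_left h3 (by rw [mul_one]; exact htower)).symm
  · have h1 : Q.ramificationIdx ℤ = 1 :=
      IsCyclotomicExtension.Rat.ramificationIdx_eq_of_not_dvd (m := p * r) ℓ F Q (by
        intro hd
        rcases (Nat.Prime.dvd_mul hℓ).mp hd with hd | hd
        · exact hℓp ((Nat.prime_dvd_prime_iff_eq hℓ hp).mp hd)
        · exact hℓr ((Nat.prime_dvd_prime_iff_eq hℓ hr).mp hd))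
    rw [h1] at htower
    exact Nat.eq_one_of_mul_eq_one_left htower.symm

include K in
theorem ramificationIdx_int_of_mem (hrp : r ≠ p) (Q : Ideal (𝓞 F)) [Q.IsPrime]
    (h : (r : 𝓞 F) ∈ Q) : Q.ramificationIdx ℤ = r - 1 := by
  have hp : p.Prime := Fact.out
  have hr : r.Prime := Fact.out
  have := Ramif_liesOver_of_mem Q hr h
  have : IsCyclotomicExtension {p * r} ℚ F := isCyclotomicExtension_mul (K := K) hrp
  have h1 : Q.ramificationIdx ℤ = r ^ 0 * (r - 1) :=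
    IsCyclotomicExtension.Rat.ramificationIdx_eq (p * r) (m := p) (p := r) (k := 0) F Q (by ring)
      (fun hd => hrp ((Nat.prime_dvd_prime_iff_eq hr hp).mp hd))
  rw [h1, pow_zero, one_mul]

theorem ramificationIdx_of_mem (hrp : r ≠ p) (Q : Ideal (𝓞 F)) [Q.IsPrime]
    (h : (r : 𝓞 F) ∈ Q) : Q.ramificationIdx (𝓞 K) = r - 1 := by
  have hp : p.Prime := Fact.out
  have hr : r.Prime := Fact.out
  have := Ramif_liesOver_of_mem Q hr h
  have : NeZero p := ⟨hp.ne_zero⟩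
  have : (Q.under (𝓞 K)).LiesOver (Ideal.span {(r : ℤ)}) :=
    Ideal.LiesOver.tower_bot Q (Q.under (𝓞 K)) (Ideal.span {(r : ℤ)})
  have htower := Ideal.ramificationIdx_tower (R := ℤ) (Q.under (𝓞 K)) Q
  have h1 : Q.ramificationIdx ℤ = r - 1 := ramificationIdx_int_of_mem (K := K) hrp Q h
  have h2 : (Q.under (𝓞 K)).ramificationIdx ℤ = 1 :=
    IsCyclotomicExtension.Rat.ramificationIdx_eq_of_not_dvd (m := p) r K (Q.under (𝓞 K))
      (fun hd => hrp ((Nat.prime_dvd_prime_iff_eq hr hp).mp hd))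
  rw [h1, h2, one_mul] at htower
  exact htower.symm

end Fermat.Agent.S14.Th
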