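import Fermat.Agent.S14.Th.Exact
import Fermat.Agent.S14.Th.Ramif

/-!
# S14 (Th) package Th-5 : the local congruence at a prime above `r`
-/

set_option autoImplicit false

namespace Fermat.Agent.S14.Th

open NumberField

variable {K : Type*} [Field K] [NumberField K] {p : ℕ} [Fact p.Prime]
  [IsCyclotomicExtension {p} ℚ K]
  {r : ℕ} [Fact r.Prime] {F : Type*} [Field F] [NumberField F] [Algebra K F]
  [IsCyclotomicExtension {r} K F]

set_option linter.unusedSectionVars false in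
omit [NumberField K] [IsCyclotomicExtension {p} ℚ K] [Algebra K F]
  [IsCyclotomicExtension {r} K F] [Fact p.Prime] in
theorem zeta_sub_one_mem {ζr : 𝓞 F} (hζr : IsPrimitiveRoot ζr r)
    (Q : Ideal (𝓞 F)) [Q.IsPrime] (hr : (r : 𝓞 F) ∈ Q) : ζr - 1 ∈ Q := by
  have hrP : r.Prime := Fact.out
  obtain ⟨k, hk⟩ := exists_add_pow_prime_eq hrP (ζr - 1) 1
  rw [sub_add_cancel, hζr.pow_eq_one, one_pow] at hk
  have h1 : (ζr - 1) ^ r = -((r : 𝓞 F) * ((ζr - 1) * 1 * k)) := by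
    linear_combination -hk
  have h2 : (ζr - 1) ^ r ∈ Q := by
    rw [h1]
    exact Q.neg_mem (Q.mul_mem_right _ hr)
  exact Ideal.IsPrime.mem_of_pow_mem inferInstance r h2

/-- `r` is associated to `(ζ_r - 1)^(r-1)` in any domain. -/
theorem Local.associated_natCast_pow {A : Type*} [CommRing A] [IsDomain A] {r : ℕ}
    (hrP : r.Prime) {ζ : A} (hζ : IsPrimitiveRoot ζ r) :
    Associated ((ζ - 1) ^ (r - 1)) (r : A) := by
  obtain ⟨n, rfl⟩ : ∃ n, r = n + 1 := ⟨r - 1, (Nat.succ_pred_eq_of_pos hrP.pos).symm⟩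
  have h1 := hζ.prod_pow_sub_one_eq_order
  have h2 : Associated (∏ _k ∈ Finset.range n, (ζ - 1)) (∏ k ∈ Finset.range n, (ζ ^ (k + 1) - 1)) := by
    refine Associated.prod _ _ _ fun k hk => ?_
    apply hζ.associated_sub_one_pow_sub_one_of_coprime
    rw [Finset.mem_range] at hk
    exact (Nat.coprime_of_lt_prime (by omega) (by omega) hrP).symm
  rw [Finset.prod_const, Finset.card_range] at h2
  rw [Nat.add_sub_cancel]
  refine h2.trans ?_
  have h3 : Associated (∏ k ∈ Finset.range n, (ζ ^ (k + 1) - 1))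
      ((-1) ^ n * ∏ k ∈ Finset.range n, (ζ ^ (k + 1) - 1)) := by
    have hu : IsUnit ((-1 : A) ^ n) := (isUnit_one.neg).pow n
    exact (associated_isUnit_mul_left_iff hu).2 (Associated.refl _) |>.symm
  rw [h1] at h3
  exact_mod_cast h3

omit [NumberField K] [IsCyclotomicExtension {p} ℚ K] [Algebra K F]
  [IsCyclotomicExtension {r} K F] [Fact p.Prime] in
theorem Local.ne_bot (Q : Ideal (𝓞 F)) (hr : (r : 𝓞 F) ∈ Q) : Q ≠ ⊥ := by
  have hrP : r.Prime := Fact.out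
  rintro rfl
  have : (r : 𝓞 F) = 0 := hr
  exact hrP.ne_zero (by exact_mod_cast this)

omit [NumberField K] [IsCyclotomicExtension {p} ℚ K] [Algebra K F]
  [IsCyclotomicExtension {r} K F] [Fact p.Prime] [NumberField F] in
theorem Local.exactPow_int (Q : Ideal (𝓞 F)) [Q.IsPrime] (hr : (r : 𝓞 F) ∈ Q) :
    ExactPow (Q.under ℤ) (r : ℤ) 1 := by
  have hrP : r.Prime := Fact.out
  have hprime : Prime (r : ℤ) := Nat.prime_iff_prime_int.1 hrP
  have hmax : (Ideal.span {(r : ℤ)}).IsMaximal :=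
    PrincipalIdealRing.isMaximal_of_irreducible hprime.irreducible
  have hle : Ideal.span {(r : ℤ)} ≤ Q.under ℤ := by
    rw [Ideal.span_singleton_le_iff_mem, Ideal.mem_comap]
    simpa using hr
  have hne : Q.under ℤ ≠ ⊤ := (Ideal.IsPrime.under ℤ Q).ne_top
  have heq : Q.under ℤ = Ideal.span {(r : ℤ)} := (hmax.eq_of_le hne hle).symm
  rw [heq]
  refine ⟨by rw [pow_one]; exact Ideal.mem_span_singleton_self _, ?_⟩
  rw [Ideal.span_singleton_pow, Ideal.mem_span_singleton]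
  intro h
  have h0 : (r : ℤ) ≠ 0 := hprime.ne_zero
  have h1 : (r : ℤ) * (r : ℤ) ∣ (r : ℤ) * 1 := by simpa [pow_two] using h
  have h2 : (r : ℤ) ∣ 1 := (mul_dvd_mul_iff_left h0).1 h1
  exact hprime.not_isUnit (isUnit_of_dvd_one h2)

include K in
theorem exactPow_zeta_sub_one (hrp : r ≠ p) {ζr : 𝓞 F} (hζr : IsPrimitiveRoot ζr r)
    (Q : Ideal (𝓞 F)) [Q.IsPrime] (hr : (r : 𝓞 F) ∈ Q) : ExactPow Q (ζr - 1) 1 := by
  have hrP : r.Prime := Fact.out
  have hQ : Q ≠ ⊥ := Local.ne_bot Q hr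
  have h1 : ExactPow Q (algebraMap ℤ (𝓞 F) (r : ℤ)) (Q.ramificationIdx ℤ * 1) :=
    ExactPow.algebraMap Q hQ (Local.exactPow_int Q hr)
  rw [ramificationIdx_int_of_mem (K := K) hrp Q hr, mul_one] at h1
  have hne : ζr - 1 ≠ 0 := sub_ne_zero.2 (hζr.ne_one hrP.one_lt)
  obtain ⟨v, hv⟩ := exists_exactPow Q hQ hne
  obtain ⟨u, hu⟩ := Local.associated_natCast_pow hrP hζr
  have h2 : ExactPow Q ((ζr - 1) ^ (r - 1) * (u : 𝓞 F)) ((r - 1) * v + 0) :=
    (hv.pow (r - 1)).mul (exactPow_unit Q u)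
  rw [hu, add_zero] at h2
  have h3 : algebraMap ℤ (𝓞 F) (r : ℤ) = (r : 𝓞 F) := by simp
  rw [h3] at h1
  have h4 : r - 1 = (r - 1) * v := h1.unique h2
  have h5 : 0 < r - 1 := Nat.sub_pos_of_lt hrP.one_lt
  have h6 : v = 1 := by
    have : (r - 1) * 1 = (r - 1) * v := by rw [mul_one]; exact h4
    exact (Nat.eq_of_mul_eq_mul_left h5 this).symm
  rw [← h6]
  exact hv

theorem map_sub_self_mem (hrp : r ≠ p) {ζr : 𝓞 F} (hζr : IsPrimitiveRoot ζr r)
    (τ : 𝓞 F ≃ₐ[𝓞 K] 𝓞 F) (y : 𝓞 F) : τ y - y ∈ Ideal.span {ζr - 1} := by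
  have hrP : r.Prime := Fact.out
  have hpP : p.Prime := Fact.out
  have : IsCyclotomicExtension {p * r} ℚ F := isCyclotomicExtension_mul (K := K) hrp
  have : NeZero (p * r) := ⟨Nat.mul_ne_zero hpP.ne_zero hrP.ne_zero⟩
  have hζK : IsPrimitiveRoot (IsCyclotomicExtension.zeta p ℚ K) p :=
    IsCyclotomicExtension.zeta_spec p ℚ K
  set ζK : 𝓞 K := hζK.toInteger with hζKdef
  have hζK' : IsPrimitiveRoot ζK p := hζK.toInteger_isPrimitiveRoot
  have hinj : Function.Injective (algebraMap (𝓞 K) (𝓞 F)) :=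
    FaithfulSMul.algebraMap_injective _ _
  have hζKF : IsPrimitiveRoot (algebraMap (𝓞 K) (𝓞 F) ζK) p := hζK'.map_of_injective hinj
  have hz : IsPrimitiveRoot (algebraMap (𝓞 K) (𝓞 F) ζK * ζr) (p * r) := by
    have hco : (orderOf (algebraMap (𝓞 K) (𝓞 F) ζK)).Coprime (orderOf ζr) := by
      rw [← hζKF.eq_orderOf, ← hζr.eq_orderOf]
      exact (Nat.coprime_primes hpP hrP).2 (Ne.symm hrp)
    have h := (Commute.all (algebraMap (𝓞 K) (𝓞 F) ζK) ζr).orderOf_mul_eq_mul_orderOf_of_coprime hco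
    rw [← hζKF.eq_orderOf, ← hζr.eq_orderOf] at h
    rw [← h]
    exact IsPrimitiveRoot.orderOf _
  have hz' : IsPrimitiveRoot (((algebraMap (𝓞 K) (𝓞 F) ζK * ζr : 𝓞 F)) : F) (p * r) :=
    hz.map_of_injective (f := algebraMap (𝓞 F) F) (RingOfIntegers.coe_injective)
  have htop := IsCyclotomicExtension.Rat.adjoin_singleton_eq_top hz'
  have hmem : y ∈ Algebra.adjoin ℤ {hz'.toInteger} := by rw [htop]; exact Algebra.mem_top
  have hgen : hz'.toInteger = algebraMap (𝓞 K) (𝓞 F) ζK * ζr := rfl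
  rw [hgen] at hmem
  induction hmem using Algebra.adjoin_induction with
  | mem x hx =>
    rw [Set.mem_singleton_iff] at hx
    subst hx
    rw [map_mul, AlgEquiv.commutes, ← mul_sub]
    apply Ideal.mul_mem_left
    rw [Ideal.mem_span_singleton]
    apply hζr.sub_one_dvd_sub hrP
    · rw [Polynomial.mem_nthRootsFinset hrP.pos, ← map_pow, hζr.pow_eq_one, map_one]
    · rw [Polynomial.mem_nthRootsFinset hrP.pos, hζr.pow_eq_one]
  | algebraMap n =>
    simp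
  | add a b _ _ ha hb =>
    have : τ (a + b) - (a + b) = (τ a - a) + (τ b - b) := by rw [map_add]; ring
    rw [this]
    exact Ideal.add_mem _ ha hb
  | mul a b _ _ ha hb =>
    have : τ (a * b) - a * b = τ a * (τ b - b) + b * (τ a - a) := by rw [map_mul]; ring
    rw [this]
    exact Ideal.add_mem _ (Ideal.mul_mem_left _ _ hb) (Ideal.mul_mem_left _ _ ha)

theorem local_congr (hrp : r ≠ p) {ζr : 𝓞 F} (hζr : IsPrimitiveRoot ζr r)
    (τ : 𝓞 F ≃ₐ[𝓞 K] 𝓞 F) (g : ℕ) (hτ : τ ζr = ζr ^ g) (ε γ : 𝓞 F) (h : ε * τ γ = γ)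
    (Q : Ideal (𝓞 F)) [Q.IsPrime] (hr : (r : 𝓞 F) ∈ Q) (c : ℕ) (hc : ExactPow Q γ c) :
    ε * (g : 𝓞 F) ^ c - 1 ∈ Q := by
  have hQ : Q ≠ ⊥ := Local.ne_bot Q hr
  set π : 𝓞 F := ζr - 1 with hπ
  have hπQ : π ∈ Q := zeta_sub_one_mem hζr Q hr
  have hπ1 : ExactPow Q π 1 := exactPow_zeta_sub_one (K := K) hrp hζr Q hr
  have hπc : ExactPow Q (π ^ c) c := by
    have := hπ1.pow c
    rwa [mul_one] at this
  have hspan : Ideal.span {π} ≤ Q := by
    rw [Ideal.span_singleton_le_iff_mem]; exact hπQ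
  have hτQ : ∀ y, τ y - y ∈ Q := fun y => hspan (map_sub_self_mem hrp hζr τ y)
  have hmapQ : Q.map (τ : 𝓞 F →+* 𝓞 F) ≤ Q := by
    rw [Ideal.map_le_iff_le_comap]
    intro y hy
    rw [Ideal.mem_comap]
    have : (τ : 𝓞 F →+* 𝓞 F) y = (τ y - y) + y := by simp
    rw [this]
    exact Q.add_mem (hτQ y) hy
  have hmapPow : ∀ (n : ℕ) (e : 𝓞 F), e ∈ Q ^ n → τ e ∈ Q ^ n := by
    intro n e he
    have h1 : (τ : 𝓞 F →+* 𝓞 F) e ∈ (Q ^ n).map (τ : 𝓞 F →+* 𝓞 F) := Ideal.mem_map_of_mem _ he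
    rw [Ideal.map_pow] at h1
    exact Ideal.pow_right_mono hmapQ n h1
  obtain ⟨d, e, he, hde⟩ := Ideal.exists_mul_add_mem_pow_succ hQ (π ^ c) γ hπc.1 hπc.2 hc.1
  -- `τ π = π * s`
  set s : 𝓞 F := ∑ i ∈ Finset.range g, ζr ^ i with hs
  have hτπ : τ π = π * s := by
    rw [hπ, map_sub, map_one, hτ, hs, mul_geom_sum]
  have hsg : s - (g : 𝓞 F) ∈ Q := by
    have : s - (g : 𝓞 F) = ∑ i ∈ Finset.range g, (ζr ^ i - 1) := by
      rw [Finset.sum_sub_distrib, Finset.sum_const, Finset.card_range, nsmul_eq_mul, mul_one]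
    rw [this]
    refine Q.sum_mem fun i _ => ?_
    have hdvd : ζr - 1 ∣ ζr ^ i - 1 := by simpa using sub_dvd_pow_sub_pow ζr 1 i
    exact Ideal.mem_of_dvd Q hdvd hπQ
  have hd : d ∉ Q := by
    intro hdQ
    apply hc.2
    rw [← hde, pow_succ]
    exact Ideal.add_mem _ (Ideal.mul_mem_mul hπc.1 hdQ) (by rwa [← pow_succ])
  -- the key relation
  have hkey : π ^ c * (ε * s ^ c * τ d - d) ∈ Q ^ (c + 1) := by
    have h1 : τ γ = (π * s) ^ c * τ d + τ e := by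
      rw [← hde, map_add, map_mul, map_pow, hτπ]
    have h2 : π ^ c * (ε * s ^ c * τ d - d) = e - ε * τ e := by
      have h3 : ε * ((π * s) ^ c * τ d + τ e) = π ^ c * d + e := by rw [← h1, h, hde]
      rw [mul_pow] at h3
      linear_combination h3
    rw [h2]
    exact Ideal.sub_mem _ he (Ideal.mul_mem_left _ _ (hmapPow _ _ he))
  have h1 : ε * s ^ c * τ d - d ∈ Q := Ideal.mem_prime_of_mul_mem_pow hQ hπc.2 hkey
  have hsc : s ^ c - (g : 𝓞 F) ^ c ∈ Q :=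
    Ideal.mem_of_dvd Q (sub_dvd_pow_sub_pow s (g : 𝓞 F) c) hsg
  have h2 : d * (ε * (g : 𝓞 F) ^ c - 1) ∈ Q := by
    have : d * (ε * (g : 𝓞 F) ^ c - 1) =
        (ε * s ^ c * τ d - d) - ε * s ^ c * (τ d - d) - ε * d * (s ^ c - (g : 𝓞 F) ^ c) := by
      ring
    rw [this]
    exact Q.sub_mem (Q.sub_mem h1 (Q.mul_mem_left _ (hτQ d))) (Q.mul_mem_left _ hsc)
  exact (Ideal.IsPrime.mem_or_mem inferInstance h2).resolve_left hd

end Fermat.Agent.S14.Th
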