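import Fermat.Agent.S14.Th.Gamma
import Fermat.Agent.S14.Th.Local
import Fermat.Agent.S14.Th.ClassRel

/-!
# S14 (Th) : Thaine's relation, assembly
-/

set_option autoImplicit false

namespace Fermat.Agent.S14

open NumberField
open scoped nonZeroDivisors

namespace Th

/-- every element of `Multiplicative (ZMod p)` is killed by `p`. -/
theorem main_pow_p {p : ℕ} [Fact p.Prime] (y : Multiplicative (ZMod p)) : y ^ p = 1 := by
  have h := pow_card_eq_one' (G := Multiplicative (ZMod p)) (x := y)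
  simpa [Nat.card_eq_fintype_card, ZMod.card] using h

theorem main_pow_congr {p : ℕ} [Fact p.Prime] (y : Multiplicative (ZMod p)) {m n : ℕ}
    (h : m ≡ n [MOD p]) : y ^ m = y ^ n := by
  rw [← Nat.div_add_mod m p, ← Nat.div_add_mod n p, pow_add, pow_add, pow_mul, pow_mul,
    main_pow_p, one_pow, one_pow, h]

theorem main_dvd_of_pow_eq_one {p : ℕ} [Fact p.Prime] {y : Multiplicative (ZMod p)} (hy : y ≠ 1)
    {n : ℕ} (h : y ^ n = 1) : p ∣ n := by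
  have := orderOf_eq_prime (main_pow_p y) hy
  rw [← this]
  exact orderOf_dvd_of_pow_eq_one h

variable {K : Type*} [Field K] [NumberField K] {p : ℕ} [Fact p.Prime]

/-- if `ζ - 1 ∈ I` then `p ∈ I`. -/
theorem main_p_mem {ζ : 𝓞 K} (hζ : IsPrimitiveRoot ζ p) (I : Ideal (𝓞 K)) (h : ζ - 1 ∈ I) :
    (p : 𝓞 K) ∈ I := by
  have h1 : ∑ i ∈ Finset.range p, ζ ^ i = 0 := hζ.geom_sum_eq_zero (Fact.out : p.Prime).one_lt
  have h2 : Ideal.Quotient.mk I ζ = 1 := by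
    have := Ideal.Quotient.eq_zero_iff_mem.mpr h
    rw [map_sub, map_one, sub_eq_zero] at this
    exact this
  have h3 := congrArg (Ideal.Quotient.mk I) h1
  rw [map_sum, map_zero] at h3
  simp only [map_pow, h2, one_pow, Finset.sum_const, Finset.card_range, nsmul_eq_mul, mul_one]
    at h3
  rw [← map_natCast (Ideal.Quotient.mk I)] at h3
  exact Ideal.Quotient.eq_zero_iff_mem.mp h3

theorem main_dvd_sub_one {ζ : 𝓞 K} (hζ : IsPrimitiveRoot ζ p) (𝔯 : Ideal (𝓞 K)) [h𝔯 : 𝔯.IsPrime]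
    {r : ℕ} (hrprime : r.Prime) (hr : Ideal.absNorm 𝔯 = r) (hrp : r ≠ p) : p ∣ r - 1 := by
  have hbot : 𝔯 ≠ ⊥ := by
    rintro rfl
    rw [Ideal.absNorm_bot] at hr
    exact hrprime.ne_zero hr.symm
  have hmax : 𝔯.IsMaximal := h𝔯.isMaximal hbot
  letI := Ideal.Quotient.field 𝔯
  haveI : Finite (𝓞 K ⧸ 𝔯) := Ideal.finiteQuotientOfFreeOfNeBot 𝔯 hbot
  letI := Fintype.ofFinite (𝓞 K ⧸ 𝔯)
  have hcard : Fintype.card (𝓞 K ⧸ 𝔯) = r := by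
    rw [← hr, Ideal.absNorm_apply, Submodule.cardQuot_apply, Nat.card_eq_fintype_card]
  have hrmem : (r : 𝓞 K) ∈ 𝔯 := hr ▸ Ideal.absNorm_mem 𝔯
  have hne1 : Ideal.Quotient.mk 𝔯 ζ ≠ 1 := by
    intro h
    have h1 : ζ - 1 ∈ 𝔯 := by
      rw [← Ideal.Quotient.eq_zero_iff_mem, map_sub, map_one, h, sub_self]
    have h2 := main_p_mem hζ 𝔯 h1
    have hcop : Nat.Coprime r p := (Nat.coprime_primes hrprime Fact.out).mpr hrp
    have h3 : ((1 : ℤ) : 𝓞 K) ∈ 𝔯 := by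
      rw [← Nat.isCoprime_iff_coprime] at hcop
      obtain ⟨a, b, hab⟩ := hcop
      rw [← hab]
      push_cast
      exact 𝔯.add_mem (𝔯.mul_mem_left _ hrmem) (𝔯.mul_mem_left _ h2)
    rw [Int.cast_one] at h3
    exact h𝔯.ne_top ((Ideal.eq_top_iff_one _).mpr h3)
  have hpow : (Ideal.Quotient.mk 𝔯 ζ) ^ p = 1 := by
    rw [← map_pow, hζ.pow_eq_one, map_one]
  have hord := orderOf_eq_prime hpow hne1
  have hne0 : Ideal.Quotient.mk 𝔯 ζ ≠ 0 := by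
    intro h
    rw [h, zero_pow (Fact.out : p.Prime).ne_zero] at hpow
    exact zero_ne_one hpow
  have := FiniteField.pow_card_sub_one_eq_one _ hne0
  rw [hcard] at this
  rw [← hord]
  exact orderOf_dvd_of_pow_eq_one this

variable [IsCyclotomicExtension {p} ℚ K]

/-- the automorphisms `ρ_b : ζ ↦ ζ^b`. -/
theorem main_exists_rho {ζ : 𝓞 K} (hζ : IsPrimitiveRoot ζ p) (b : ℕ) (hb : b ∈ Finset.Ico 1 p) :
    ∃ ρ : K ≃ₐ[ℚ] K, sigO ρ ζ = ζ ^ b := by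
  have hp : p.Prime := Fact.out
  rw [Finset.mem_Ico] at hb
  have hcop : Nat.Coprime b p :=
    (Nat.coprime_comm.mp ((Nat.Prime.coprime_iff_not_dvd hp).mpr
      (Nat.not_dvd_of_pos_of_lt hb.1 hb.2)))
  refine ⟨(IsCyclotomicExtension.Rat.galEquivZMod p K).symm (ZMod.unitOfCoprime b hcop), ?_⟩
  apply RingOfIntegers.ext
  rw [RingOfIntegers.mapRingEquiv_apply]
  have h1 : ((ζ : 𝓞 K) : K) ^ p = 1 := by
    have := congrArg (fun y : 𝓞 K => (y : K)) hζ.pow_eq_one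
    simpa using this
  have := IsCyclotomicExtension.Rat.galEquivZMod_apply_of_pow_eq p K
    ((IsCyclotomicExtension.Rat.galEquivZMod p K).symm (ZMod.unitOfCoprime b hcop)) h1
  rw [MulEquiv.apply_symm_apply, ZMod.coe_unitOfCoprime, ZMod.val_natCast,
    Nat.mod_eq_of_lt hb.2] at this
  rw [show ((ζ ^ b : 𝓞 K) : K) = (ζ : K) ^ b by simp]
  exact this

theorem main_lam_sigma {ζ : 𝓞 K}
    (lam : ClassGroup (𝓞 K) →* Multiplicative (ZMod p)) (hp3 : 3 ≤ p)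
    (hlam : ∀ (σ : K ≃ₐ[ℚ] K) (n : ℕ), sigO σ ζ = ζ ^ n →
      ∀ c : ClassGroup (𝓞 K), lam (ClassGroup.mulEquiv (sigO σ) c) = lam c ^ (n ^ 2))
    (b : ℕ) (hb : b ∈ Finset.Ico 1 p) (ρ : K ≃ₐ[ℚ] K) (hρ : sigO ρ ζ = ζ ^ b)
    (𝔯 : (Ideal (𝓞 K))⁰) :
    lam (ClassGroup.mk0 (Ideal.mapNonZero (sigO ρ.symm) 𝔯)) =
      lam (ClassGroup.mk0 𝔯) ^ (b ^ (p - 3)) := by
  have hp : p.Prime := Fact.out
  rw [Finset.mem_Ico] at hb
  rw [← ClassGroup.mulEquiv_mk0]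
  set C := ClassGroup.mk0 𝔯
  have h1 := hlam ρ b hρ (ClassGroup.mulEquiv (sigO ρ.symm) C)
  rw [← ClassGroup.mulEquiv_trans_apply] at h1
  have h2 : (sigO ρ.symm).trans (sigO ρ) = RingEquiv.refl (𝓞 K) := by
    ext x
    simp [RingOfIntegers.mapRingEquiv_apply]
  rw [h2, ClassGroup.mulEquiv_refl_apply] at h1
  rw [h1, ← pow_mul, ← pow_add]
  have h3 : 2 + (p - 3) = p - 1 := by omega
  rw [h3]
  have h4 : b ^ (p - 1) ≡ 1 [MOD p] := by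
    rw [← ZMod.natCast_eq_natCast_iff]
    push_cast
    apply ZMod.pow_card_sub_one_eq_one
    rw [Ne, ZMod.natCast_eq_zero_iff]
    exact Nat.not_dvd_of_pos_of_lt hb.1 hb.2
  rw [main_pow_congr _ h4, pow_one]

section WithF

variable {r : ℕ} [Fact r.Prime] {F : Type*} [Field F] [NumberField F] [Algebra K F]
  [IsCyclotomicExtension {r} K F]

omit [Fact p.Prime] [IsCyclotomicExtension {p} ℚ K] [Fact r.Prime]
  [IsCyclotomicExtension {r} K F] in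
theorem main_exists_over (𝔮 : Ideal (𝓞 K)) [𝔮.IsPrime] (h0 : 𝔮 ≠ ⊥) :
    ∃ Q : Ideal (𝓞 F), Q.IsPrime ∧ Q ≠ ⊥ ∧ Q.under (𝓞 K) = 𝔮 := by
  have : 𝔮.IsMaximal := Ideal.IsPrime.isMaximal inferInstance h0
  obtain ⟨Q, hQ1, hQ2⟩ := Ideal.exists_maximal_ideal_liesOver_of_isIntegral 𝔮 (S := 𝓞 F)
  refine ⟨Q, hQ1.isPrime, ?_, hQ2.over.symm⟩
  exact Ideal.ne_bot_of_liesOver_of_ne_bot h0 Q

theorem main_h1 (hrp : r ≠ p) {x : 𝓞 K} {γ : 𝓞 F} (hγ : γ ≠ 0) {u : (𝓞 F)ˣ}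
    (hx : algebraMap (𝓞 K) (𝓞 F) x = u * γ ^ (r - 1))
    (𝔮 : Ideal (𝓞 K)) [𝔮.IsPrime] (h0 : 𝔮 ≠ ⊥) (hr : (r : 𝓞 K) ∉ 𝔮) (n : ℕ)
    (hn : ExactPow 𝔮 x n) : r - 1 ∣ n := by
  obtain ⟨Q, hQ1, hQ0, hQ2⟩ := main_exists_over (F := F) 𝔮 h0
  have hrQ : (r : 𝓞 F) ∉ Q := by
    intro h
    apply hr
    rw [← hQ2, Ideal.under_def, Ideal.mem_comap, map_natCast]
    exact h
  have e1 := ramificationIdx_of_notMem (K := K) hrp Q hQ0 hrQ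
  rw [← hQ2] at hn
  have h1 := ExactPow.algebraMap Q hQ0 hn
  rw [e1, one_mul, hx] at h1
  obtain ⟨d, hd⟩ := exists_exactPow Q hQ0 hγ
  have h2 := (exactPow_unit Q u).mul (hd.pow (r - 1))
  have := h1.unique h2
  rw [this, zero_add]
  exact Dvd.intro _ rfl

theorem main_h2 (hrp : r ≠ p) {ζ : 𝓞 K} {ζr : 𝓞 F} (hζr : IsPrimitiveRoot ζr r)
    {x : 𝓞 K} {γ : 𝓞 F} (hγ : γ ≠ 0) {u : (𝓞 F)ˣ}
    (hx : algebraMap (𝓞 K) (𝓞 F) x = u * γ ^ (r - 1))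
    (τ : 𝓞 F ≃ₐ[𝓞 K] 𝓞 F) (g : ℕ) (hτ : τ ζr = ζr ^ g)
    (h : (1 - algebraMap (𝓞 K) (𝓞 F) ζ * ζr) * τ γ = γ)
    (𝔮 : Ideal (𝓞 K)) [𝔮.IsPrime] (h0 : 𝔮 ≠ ⊥) (hr : (r : 𝓞 K) ∈ 𝔮) (c : ℕ)
    (hc : ExactPow 𝔮 x c) : (1 - ζ) * (g : 𝓞 K) ^ c - 1 ∈ 𝔮 := by
  obtain ⟨Q, hQ1, hQ0, hQ2⟩ := main_exists_over (F := F) 𝔮 h0
  have hrQ : (r : 𝓞 F) ∈ Q := by
    rw [← hQ2, Ideal.under_def, Ideal.mem_comap, map_natCast] at hr
    exact hr
  have e1 := ramificationIdx_of_mem (K := K) hrp Q hrQ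
  rw [← hQ2] at hc
  have h1 := ExactPow.algebraMap Q hQ0 hc
  rw [e1, hx] at h1
  obtain ⟨d, hd⟩ := exists_exactPow Q hQ0 hγ
  have h2 := (exactPow_unit Q u).mul (hd.pow (r - 1))
  have h3 := h1.unique h2
  rw [zero_add] at h3
  have hr1 : 0 < r - 1 := by
    have := (Fact.out : r.Prime).two_le
    omega
  have h4 : c = d := Nat.eq_of_mul_eq_mul_left hr1 h3
  subst h4
  have h5 := local_congr hrp hζr τ g hτ _ γ h Q hrQ c hd
  have h6 := zeta_sub_one_mem hζr Q hrQ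
  rw [← hQ2, Ideal.under_def, Ideal.mem_comap]
  have h7 : algebraMap (𝓞 K) (𝓞 F) ((1 - ζ) * (g : 𝓞 K) ^ c - 1) =
      ((1 - algebraMap (𝓞 K) (𝓞 F) ζ * ζr) * (g : 𝓞 F) ^ c - 1) +
        (ζr - 1) * (algebraMap (𝓞 K) (𝓞 F) ζ * (g : 𝓞 F) ^ c) := by
    simp only [map_sub, map_mul, map_one, map_pow, map_natCast]
    ring
  rw [h7]
  exact Q.add_mem h5 (Q.mul_mem_right _ h6)

end WithF

end Th

theorem thaine {K : Type*} [Field K] [NumberField K] {p : ℕ} [Fact p.Prime] (hp5 : 5 ≤ p)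
    [IsCyclotomicExtension {p} ℚ K] {ζ : 𝓞 K} (hζ : IsPrimitiveRoot ζ p)
    (lam : ClassGroup (𝓞 K) →* Multiplicative (ZMod p))
    (hlam : ∀ (σ : K ≃ₐ[ℚ] K) (n : ℕ), sigO σ ζ = ζ ^ n →
      ∀ c : ClassGroup (𝓞 K), lam (ClassGroup.mulEquiv (sigO σ) c) = lam c ^ (n ^ 2))
    (𝔯 : (Ideal (𝓞 K))⁰) (h𝔯 : (𝔯 : Ideal (𝓞 K)).IsPrime)
    (hr : (Ideal.absNorm (𝔯 : Ideal (𝓞 K))).Prime) (hrp : Ideal.absNorm (𝔯 : Ideal (𝓞 K)) ≠ p)
    (hne : lam (ClassGroup.mk0 𝔯) ≠ 1) :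
    ∃ z : 𝓞 K, eta p ζ - z ^ p ∈ (𝔯 : Ideal (𝓞 K)) := by
  classical
  have hp : p.Prime := Fact.out
  obtain ⟨r, hrdef⟩ : ∃ r, Ideal.absNorm (𝔯 : Ideal (𝓞 K)) = r := ⟨_, rfl⟩
  rw [hrdef] at hr hrp
  have : Fact r.Prime := ⟨hr⟩
  have hr1 : p ∣ r - 1 := Th.main_dvd_sub_one hζ 𝔯 hr hrdef hrp
  have hrmem : (r : 𝓞 K) ∈ (𝔯 : Ideal (𝓞 K)) := hrdef ▸ Ideal.absNorm_mem _
  -- the field `F`
  have hζr0 := IsCyclotomicExtension.zeta_spec r K (CyclotomicField r K)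
  have hζr : IsPrimitiveRoot hζr0.toInteger r := hζr0.toInteger_isPrimitiveRoot
  obtain ⟨τ, g, γ, x, u, hγ, hτ, hH, hx⟩ :=
    Th.exists_gamma (F := CyclotomicField r K) hrp hr1 hζ hζr
  have hx0 : x ≠ 0 := by
    rintro rfl
    rw [map_zero] at hx
    exact (mul_ne_zero u.ne_zero (pow_ne_zero _ hγ)) hx.symm
  -- the family of automorphisms
  choose! ρ hρ using Th.main_exists_rho (K := K) hζ
  have hσ : ∀ b ∈ Finset.Ico 1 p, sigO (ρ b).symm (ζ ^ b) = ζ := by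
    intro b hb
    rw [← hρ b hb]
    apply RingOfIntegers.ext
    simp [RingOfIntegers.mapRingEquiv_apply]
  have hprime : ∀ b, (Ideal.mapNonZero (sigO (ρ b).symm) 𝔯 : Ideal (𝓞 K)).IsPrime := fun b => by
    rw [Ideal.coe_mapNonZero]
    exact Ideal.map_isPrime_of_equiv _
  have hbot : ∀ b, (Ideal.mapNonZero (sigO (ρ b).symm) 𝔯 : Ideal (𝓞 K)) ≠ ⊥ := fun b =>
    mem_nonZeroDivisors_iff_ne_zero.mp (Ideal.mapNonZero (sigO (ρ b).symm) 𝔯).2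
  have hrmem' : ∀ b, (r : 𝓞 K) ∈ (Ideal.mapNonZero (sigO (ρ b).symm) 𝔯 : Ideal (𝓞 K)) := fun b => by
    rw [Ideal.coe_mapNonZero]
    have := Ideal.mem_map_of_mem ((sigO (ρ b).symm : 𝓞 K ≃+* 𝓞 K) : 𝓞 K →+* 𝓞 K) hrmem
    rwa [map_natCast] at this
  have hex : ∀ b, ∃ c, Th.ExactPow (Ideal.mapNonZero (sigO (ρ b).symm) 𝔯 : Ideal (𝓞 K)) x c :=
    fun b => by
      have := hprime b
      exact Th.exists_exactPow _ (hbot b) hx0
  choose c hc using hex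
  -- the class group relation
  have hrel := Th.class_relation hζ lam 𝔯 h𝔯 hrdef hrp (fun b => (ρ b).symm) hσ x hx0 c
    (fun 𝔮 h𝔮 h0 hr𝔮 n hn => by
      have := h𝔮
      exact hr1.trans (Th.main_h1 hrp hγ hx 𝔮 h0 hr𝔮 n hn))
    (fun b _ => hc b)
  have hrel2 : lam (ClassGroup.mk0 𝔯) ^ (∑ b ∈ Finset.Ico 1 p, b ^ (p - 3) * c b) = 1 := by
    rw [← hrel, ← Finset.prod_pow_eq_pow_sum]
    refine Finset.prod_congr rfl fun b hb => ?_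
    rw [Th.main_lam_sigma lam (by omega) hlam b hb (ρ b) (hρ b hb) 𝔯, pow_mul]
  obtain ⟨k, hk⟩ := Th.main_dvd_of_pow_eq_one hne hrel2
  -- the congruences
  have hcong : ∀ b ∈ Finset.Ico 1 p, (1 - ζ ^ b) * (g : 𝓞 K) ^ (c b) - 1 ∈ (𝔯 : Ideal (𝓞 K)) := by
    intro b hb
    have := hprime b
    have h1 := Th.main_h2 hrp hζr hγ hx τ g hτ hH _ (hbot b) (hrmem' b) (c b) (hc b)
    rw [Ideal.coe_mapNonZero] at h1
    obtain ⟨y, hy, hy2⟩ := (Ideal.mem_map_iff_of_surjective _ (sigO (ρ b).symm).surjective).mp h1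
    have h2 : (sigO (ρ b).symm) ((1 - ζ ^ b) * (g : 𝓞 K) ^ (c b) - 1) =
        (1 - ζ) * (g : 𝓞 K) ^ (c b) - 1 := by
      rw [map_sub, map_mul, map_sub, map_one, map_pow _ (g : 𝓞 K), map_natCast, hσ b hb]
    have h3 : y = (1 - ζ ^ b) * (g : 𝓞 K) ^ (c b) - 1 :=
      (sigO (ρ b).symm).injective (hy2.trans h2.symm)
    rwa [← h3]
  -- conclusion in the quotient
  set φ := Ideal.Quotient.mk (𝔯 : Ideal (𝓞 K)) with hφ
  have hφ1 : ∀ b ∈ Finset.Ico 1 p, φ (1 - ζ ^ b) * φ (g : 𝓞 K) ^ (c b) = 1 := by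
    intro b hb
    have := Ideal.Quotient.eq_zero_iff_mem.mpr (hcong b hb)
    rw [map_sub, map_mul, map_pow, map_one, sub_eq_zero] at this
    exact this
  have hmain : φ (eta p ζ) * (φ (g : 𝓞 K) ^ k) ^ p = 1 := by
    rw [← pow_mul, mul_comm k p, ← hk, eta, map_prod, ← Finset.prod_pow_eq_pow_sum,
      ← Finset.prod_mul_distrib]
    refine Finset.prod_eq_one fun b hb => ?_
    rw [map_pow, mul_comm (b ^ (p - 3)) (c b), pow_mul, ← mul_pow, hφ1 b hb, one_pow]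
  refine ⟨eta p ζ * ((g : 𝓞 K) ^ k) ^ (p - 1), ?_⟩
  rw [← Ideal.Quotient.eq_zero_iff_mem, map_sub, sub_eq_zero, map_pow, map_mul, map_pow, map_pow]
  set A := φ (eta p ζ)
  set B := φ (g : 𝓞 K) ^ k
  have h1 : (A * B ^ (p - 1)) ^ p = A * (A * B ^ p) ^ (p - 1) := by
    obtain ⟨m, rfl⟩ : ∃ m, p = m + 1 := ⟨p - 1, by omega⟩
    simp only [Nat.add_sub_cancel]
    ring
  rw [h1, hmain, one_pow, mul_one]

end Fermat.Agent.S14
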