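import Fermat.Agent.S14.Defs

/-!
# S14, block (Th) : Thaine's relation -- common definitions
-/

set_option autoImplicit false

namespace Fermat.Agent.S14.Th

open NumberField

/-- `x` has exact `P`-adic valuation `c`. -/
def ExactPow {R : Type*} [CommRing R] (P : Ideal R) (x : R) (c : ℕ) : Prop :=
  x ∈ P ^ c ∧ x ∉ P ^ (c + 1)

/-- The ring automorphism of `𝓞 L` induced by `τ ∈ Gal(L/K)`. -/
noncomputable abbrev tauO {K : Type*} [Field K] {L : Type*} [Field L] [Algebra K L]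
    (τ : L ≃ₐ[K] L) : 𝓞 L ≃+* 𝓞 L :=
  RingOfIntegers.mapRingEquiv (τ : L ≃+* L)

theorem tauO_coe {K : Type*} [Field K] {L : Type*} [Field L] [Algebra K L]
    (τ : L ≃ₐ[K] L) (x : 𝓞 L) : ((tauO τ x : 𝓞 L) : L) = τ (x : L) := rfl

end Fermat.Agent.S14.Th
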