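import Fermat.Agent.S14.Th.Basic

/-!
# S14 (Th) package Th-1 : general lemmas on `ExactPow` in Dedekind domains
-/

set_option autoImplicit false

namespace Fermat.Agent.S14.Th

variable {R : Type*} [CommRing R] [IsDedekindDomain R]

theorem exact_iff_emultiplicity (P : Ideal R) (x : R) (c : ℕ) :
    ExactPow P x c ↔ emultiplicity P (Ideal.span {x}) = c := by
  rw [emultiplicity_eq_coe, Ideal.dvd_span_singleton, Ideal.dvd_span_singleton]
  rfl

theorem exact_bot_iff (x : R) (c : ℕ) : ExactPow (⊥ : Ideal R) x c ↔ x ≠ 0 ∧ c = 0 := by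
  unfold ExactPow
  rw [Ideal.bot_pow (Nat.succ_ne_zero c), Ideal.mem_bot]
  constructor
  · rintro ⟨h1, h2⟩
    refine ⟨h2, ?_⟩
    by_contra hc
    rw [Ideal.bot_pow hc, Ideal.mem_bot] at h1
    exact h2 h1
  · rintro ⟨h1, rfl⟩
    exact ⟨by simp, h1⟩

theorem exists_exactPow (P : Ideal R) [P.IsPrime] (hP : P ≠ ⊥) {x : R} (hx : x ≠ 0) :
    ∃ c, ExactPow P x c := by
  have hfin : FiniteMultiplicity P (Ideal.span {x}) := by
    apply FiniteMultiplicity.of_not_isUnit
    · rw [Ideal.isUnit_iff]; exact Ideal.IsPrime.ne_top ‹_›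
    · rwa [Ne, Ideal.zero_eq_bot, Ideal.span_singleton_eq_bot]
  exact ⟨multiplicity P (Ideal.span {x}),
    (exact_iff_emultiplicity P x _).mpr hfin.emultiplicity_eq_multiplicity⟩

theorem ExactPow.unique {P : Ideal R} {x : R} {c d : ℕ} (hc : ExactPow P x c)
    (hd : ExactPow P x d) : c = d := by
  rw [exact_iff_emultiplicity] at hc hd
  exact_mod_cast hc.symm.trans hd

theorem ExactPow.mul {P : Ideal R} [P.IsPrime] {x y : R} {c d : ℕ} (hc : ExactPow P x c)
    (hd : ExactPow P y d) : ExactPow P (x * y) (c + d) := by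
  by_cases hP : P = ⊥
  · subst hP
    rw [exact_bot_iff] at hc hd ⊢
    exact ⟨mul_ne_zero hc.1 hd.1, by rw [hc.2, hd.2]⟩
  · have hprime : Prime P := Ideal.prime_of_isPrime hP ‹_›
    rw [exact_iff_emultiplicity] at hc hd ⊢
    rw [← Ideal.span_singleton_mul_span_singleton, emultiplicity_mul hprime, hc, hd]
    norm_cast

theorem exact_one (P : Ideal R) [P.IsPrime] : ExactPow P (1 : R) 0 := by
  refine ⟨by simp, ?_⟩
  rw [zero_add, pow_one]
  exact fun h => Ideal.IsPrime.ne_top ‹_› ((Ideal.eq_top_iff_one P).mpr h)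

theorem ExactPow.pow {P : Ideal R} [P.IsPrime] {x : R} {c : ℕ} (hc : ExactPow P x c) (n : ℕ) :
    ExactPow P (x ^ n) (n * c) := by
  induction n with
  | zero => simpa using exact_one P
  | succ n ih =>
    have h := ih.mul hc
    rwa [← pow_succ, show n * c + c = (n + 1) * c by ring] at h

theorem exactPow_unit (P : Ideal R) [P.IsPrime] (u : Rˣ) : ExactPow P (u : R) 0 := by
  refine ⟨by simp, ?_⟩
  rw [zero_add, pow_one]
  exact fun h => Ideal.IsPrime.ne_top ‹_› (Ideal.eq_top_of_isUnit_mem P h u.isUnit)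

theorem ExactPow.algebraMap {S : Type*} [CommRing S] [IsDedekindDomain S] [Algebra R S]
    [Module.IsTorsionFree R S] (Q : Ideal S) [Q.IsPrime] (hQ : Q ≠ ⊥) {x : R} {c : ℕ}
    (hc : ExactPow (Q.under R) x c) :
    ExactPow Q (algebraMap R S x) (Q.ramificationIdx R * c) := by
  by_cases hq : Q.under R = ⊥
  · rw [hq, exact_bot_iff] at hc
    obtain ⟨hx, rfl⟩ := hc
    refine ⟨by simp, ?_⟩
    rw [mul_zero, zero_add, pow_one]
    intro h
    have h2 : x ∈ Q.under R := h
    rw [hq, Ideal.mem_bot] at h2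
    exact hx h2
  · have hprime : Prime Q := Ideal.prime_of_isPrime hQ ‹_›
    have hmap : (Q.under R).map (Algebra.algebraMap R S) ≠ ⊥ := Ideal.map_ne_bot_of_ne_bot hq
    obtain ⟨h1, h2⟩ := hc
    rw [← Ideal.dvd_span_singleton] at h1 h2
    obtain ⟨I, hI⟩ := h1
    have hqI : ¬ Q.under R ∣ I := by
      rintro ⟨J, rfl⟩
      exact h2 ⟨J, by rw [hI, pow_succ, mul_assoc]⟩
    have hQI : emultiplicity Q (I.map (Algebra.algebraMap R S)) = 0 := by
      rw [emultiplicity_eq_zero, Ideal.dvd_iff_le, Ideal.map_le_iff_le_comap]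
      intro h
      exact hqI (Ideal.dvd_iff_le.mpr h)
    have he : emultiplicity Q ((Q.under R).map (Algebra.algebraMap R S)) = Q.ramificationIdx R := by
      rw [Ideal.IsDedekindDomain.ramificationIdx_eq_multiplicity (Q.under R) Q hmap]
      apply FiniteMultiplicity.emultiplicity_eq_multiplicity
      apply FiniteMultiplicity.of_not_isUnit
      · rw [Ideal.isUnit_iff]; exact Ideal.IsPrime.ne_top ‹_›
      · exact hmap
    rw [exact_iff_emultiplicity]
    have hspan : Ideal.span {Algebra.algebraMap R S x} =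
        ((Q.under R).map (Algebra.algebraMap R S)) ^ c * I.map (Algebra.algebraMap R S) := by
      rw [← Ideal.map_pow, ← Ideal.map_mul, ← hI, Ideal.map_span, Set.image_singleton]
    rw [hspan, emultiplicity_mul hprime, emultiplicity_pow hprime, he, hQI, add_zero]
    push_cast
    ring

end Fermat.Agent.S14.Th
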