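import Fermat.Agent.S14.Th.Basic

/-!
# S14 (Th) package Th-2 : the field `F = K(ζ_r) = ℚ(ζ_{pr})` over `K = ℚ(ζ_p)`
-/

set_option autoImplicit false

namespace Fermat.Agent.S14.Th

open NumberField

/-- the norm of `a - gen` is the value of the minimal polynomial at `a`. -/
theorem Field_norm_algebraMap_sub_gen {R S : Type*} [CommRing R] [CommRing S] [Algebra R S]
    (pb : PowerBasis R S) (a : R) :
    Algebra.norm R (algebraMap R S a - pb.gen) = (minpoly R pb.gen).eval a := by
  rw [Algebra.norm_eq_matrix_det pb.basis, map_sub, AlgHom.commutes, ← charpoly_leftMulMatrix pb,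
    Matrix.eval_charpoly]
  rfl

variable {K : Type*} [Field K] [NumberField K] {p : ℕ} [Fact p.Prime]
  [IsCyclotomicExtension {p} ℚ K]
  {r : ℕ} [Fact r.Prime] {F : Type*} [Field F] [NumberField F] [Algebra K F]
  [IsCyclotomicExtension {r} K F]

include K in
theorem isCyclotomicExtension_mul (hrp : r ≠ p) : IsCyclotomicExtension {p * r} ℚ F := by
  have hp : p.Prime := Fact.out
  have hr : r.Prime := Fact.out
  have H1 : IsCyclotomicExtension ({p} ∪ {r}) ℚ F :=
    IsCyclotomicExtension.trans {p} {r} ℚ K F (algebraMap K F).injective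
  have hpr : p * r ≠ 0 := mul_ne_zero hp.ne_zero hr.ne_zero
  have : NeZero (p * r) := ⟨hpr⟩
  rw [IsCyclotomicExtension.iff_singleton]
  constructor
  · obtain ⟨ζ, hζ⟩ := H1.exists_isPrimitiveRoot (n := p) (Or.inl rfl) hp.ne_zero
    obtain ⟨ζr, hζr⟩ := H1.exists_isPrimitiveRoot (n := r) (Or.inr rfl) hr.ne_zero
    refine ⟨ζ * ζr, ?_⟩
    rw [IsPrimitiveRoot.iff_orderOf,
      (Commute.all ζ ζr).orderOf_mul_eq_mul_orderOf_of_coprime, ← hζ.eq_orderOf, ← hζr.eq_orderOf]
    rw [← hζ.eq_orderOf, ← hζr.eq_orderOf]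
    exact (Nat.coprime_primes hp hr).mpr hrp.symm
  · intro x
    refine Algebra.adjoin_mono ?_ (H1.adjoin_roots x)
    rintro b ⟨n, hn, -, hb⟩
    rcases hn with hn | hn
    · rw [Set.mem_singleton_iff] at hn
      subst hn
      show b ^ (n * r) = 1
      rw [pow_mul, hb, one_pow]
    · rw [Set.mem_singleton_iff] at hn
      subst hn
      show b ^ (p * n) = 1
      rw [mul_comm, pow_mul, hb, one_pow]

theorem Field_finrank (hrp : r ≠ p) : Module.finrank K F = r - 1 := by
  have hp : p.Prime := Fact.out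
  have hr : r.Prime := Fact.out
  have : NeZero (p * r) := ⟨mul_ne_zero hp.ne_zero hr.ne_zero⟩
  have : NeZero p := ⟨hp.ne_zero⟩
  have H := isCyclotomicExtension_mul (K := K) (F := F) hrp
  have h1 : Module.finrank ℚ F = (p * r).totient :=
    IsCyclotomicExtension.finrank F (Polynomial.cyclotomic.irreducible_rat (Nat.pos_of_ne_zero
      (mul_ne_zero hp.ne_zero hr.ne_zero)))
  have h2 : Module.finrank ℚ K = p.totient :=
    IsCyclotomicExtension.finrank K (Polynomial.cyclotomic.irreducible_rat hp.pos)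
  have h3 := Module.finrank_mul_finrank ℚ K F
  rw [h1, h2, Nat.totient_mul ((Nat.coprime_primes hp hr).mpr hrp.symm), Nat.totient_prime hr] at h3
  exact Nat.eq_of_mul_eq_mul_left (Nat.totient_pos.mpr hp.pos) h3

include F in
theorem Field_irreducible_cyclotomic_aux (hrp : r ≠ p) :
    Irreducible (Polynomial.cyclotomic r K) := by
  have hr : r.Prime := Fact.out
  have : NeZero r := ⟨hr.ne_zero⟩
  have hζ := IsCyclotomicExtension.zeta_spec r K F
  set ζr := IsCyclotomicExtension.zeta r K F
  have hint : IsIntegral K ζr := (IsCyclotomicExtension.integral {r} K F).isIntegral ζr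
  have hdeg : (minpoly K ζr).natDegree = r - 1 := by
    rw [← hζ.powerBasis_dim K, ← PowerBasis.finrank, Field_finrank (K := K) (F := F) hrp]
  have hdvd : minpoly K ζr ∣ Polynomial.cyclotomic r K := by
    apply minpoly.dvd
    have : NeZero (r : F) := IsCyclotomicExtension.neZero r K F
    rw [Polynomial.aeval_def, Polynomial.eval₂_eq_eval_map, Polynomial.map_cyclotomic,
      ← Polynomial.IsRoot.def, Polynomial.isRoot_cyclotomic_iff]
    exact hζ
  have heq : minpoly K ζr = Polynomial.cyclotomic r K := by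
    symm
    refine Polynomial.eq_of_monic_of_dvd_of_natDegree_le (minpoly.monic hint)
      (Polynomial.cyclotomic.monic r K) hdvd ?_
    rw [hdeg, Polynomial.natDegree_cyclotomic, Nat.totient_prime hr]
  rw [← heq]
  exact minpoly.irreducible hint

theorem irreducible_cyclotomic (hrp : r ≠ p) : Irreducible (Polynomial.cyclotomic r K) :=
  Field_irreducible_cyclotomic_aux (F := CyclotomicField r K) hrp

theorem norm_eq_one (hrp : r ≠ p) (hr1 : p ∣ r - 1) {ζ : K} (hζ : IsPrimitiveRoot ζ p)
    {ζr : F} (hζr : IsPrimitiveRoot ζr r) :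
    Algebra.norm K (1 - algebraMap K F ζ * ζr) = 1 := by
  have hp : p.Prime := Fact.out
  have hr : r.Prime := Fact.out
  have : NeZero r := ⟨hr.ne_zero⟩
  have hirr := irreducible_cyclotomic (K := K) hrp
  have hζ0 : ζ ≠ 0 := hζ.ne_zero hp.ne_zero
  have hpow : ζ ^ (r - 1) = 1 := by
    obtain ⟨k, hk⟩ := hr1
    rw [hk, pow_mul, hζ.pow_eq_one, one_pow]
  have h1 : (1 : F) - algebraMap K F ζ * ζr =
      algebraMap K F ζ * (algebraMap K F ζ⁻¹ - (hζr.powerBasis K).gen) := by
    rw [hζr.powerBasis_gen K, mul_sub, ← map_mul, mul_inv_cancel₀ hζ0, map_one]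
  have : NeZero (r : K) := IsCyclotomicExtension.neZero' r K F
  rw [h1, map_mul, Algebra.norm_algebraMap, Field_finrank (K := K) (F := F) hrp, hpow, one_mul,
    Field_norm_algebraMap_sub_gen, hζr.powerBasis_gen K,
    ← hζr.minpoly_eq_cyclotomic_of_irreducible hirr]
  have h2 := congrArg (Polynomial.eval ζ⁻¹) (Polynomial.cyclotomic_prime_mul_X_sub_one K r)
  simp only [Polynomial.eval_mul, Polynomial.eval_sub, Polynomial.eval_X, Polynomial.eval_one,
    Polynomial.eval_pow] at h2
  have h3 : ζ⁻¹ ^ r = ζ⁻¹ := by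
    have : r = (r - 1) + 1 := (Nat.sub_add_cancel hr.one_le).symm
    rw [this, pow_succ, inv_pow, hpow, inv_one, one_mul]
  rw [h3] at h2
  have h4 : ζ⁻¹ - 1 ≠ 0 := by
    intro h
    have : ζ = 1 := by
      have := sub_eq_zero.mp h
      rwa [inv_eq_one] at this
    exact hζ.ne_one hp.one_lt this
  exact mul_right_cancel₀ h4 (by rw [h2, one_mul])

end Fermat.Agent.S14.Th
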