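import Fermat.Agent.S14.Th.Field

/-!
# S14 (Th) package Th-3 : Hilbert 90 for the unit `1 - ζ ζ_r`
-/

set_option autoImplicit false

namespace Fermat.Agent.S14.Th

open NumberField

open groupCohomology

section H90

variable {K L : Type*} [Field K] [Field L] [Algebra K L] [FiniteDimensional K L]

/-- partial norms. -/
noncomputable def Gamma_F (g : L ≃ₐ[K] L) (x : Lˣ) (i : ℕ) : Lˣ :=
  ∏ j ∈ Finset.range i, (g ^ j) • x

omit [FiniteDimensional K L] in
theorem Gamma_F_add (g : L ≃ₐ[K] L) (x : Lˣ) (i j : ℕ) :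
    Gamma_F g x (i + j) = Gamma_F g x i * (g ^ i) • Gamma_F g x j := by
  unfold Gamma_F
  rw [Finset.prod_range_add, Finset.smul_prod']
  congr 1
  refine Finset.prod_congr rfl fun k _ => ?_
  rw [pow_add, mul_smul]

theorem Gamma_F_orderOf [IsGalois K L] {g : L ≃ₐ[K] L} (hg : ∀ x, x ∈ Subgroup.zpowers g)
    (x : Lˣ) (hx : Algebra.norm K (x : L) = 1) : Gamma_F g x (orderOf g) = 1 := by
  classical
  have h1 : Finset.image (fun i => g ^ i) (Finset.range (orderOf g)) = Finset.univ := by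
    rw [image_range_orderOf]
    ext σ
    simp [hg σ]
  have h2 : algebraMap K L (Algebra.norm K (x : L)) = ∏ σ : L ≃ₐ[K] L, σ (x : L) :=
    Algebra.norm_eq_prod_automorphisms K (x : L)
  rw [hx, map_one, ← h1, Finset.prod_image] at h2
  · apply Units.ext
    unfold Gamma_F
    rw [Units.val_one, h2, Units.coe_prod]
    rfl
  · intro a ha b hb hab
    exact pow_injOn_Iio_orderOf (by simpa using ha) (by simpa using hb) hab

theorem Gamma_F_mul_orderOf [IsGalois K L] {g : L ≃ₐ[K] L} (hg : ∀ x, x ∈ Subgroup.zpowers g)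
    (x : Lˣ) (hx : Algebra.norm K (x : L) = 1) (q : ℕ) : Gamma_F g x (orderOf g * q) = 1 := by
  induction q with
  | zero => simp [Gamma_F]
  | succ q ih =>
    rw [Nat.mul_succ, Gamma_F_add, ih, Gamma_F_orderOf hg x hx, smul_one, one_mul]

theorem Gamma_F_congr [IsGalois K L] {g : L ≃ₐ[K] L} (hg : ∀ x, x ∈ Subgroup.zpowers g)
    (x : Lˣ) (hx : Algebra.norm K (x : L) = 1) {i j : ℕ} (hij : g ^ i = g ^ j) :
    Gamma_F g x i = Gamma_F g x j := by
  have key : ∀ i, Gamma_F g x i = Gamma_F g x (i % orderOf g) := by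
    intro i
    conv_lhs => rw [← Nat.mod_add_div i (orderOf g)]
    rw [Gamma_F_add, Gamma_F_mul_orderOf hg x hx, smul_one, mul_one]
  rw [key i, key j]
  rw [pow_eq_pow_iff_modEq] at hij
  rw [hij]

theorem Gamma_hilbert90 [IsGalois K L] {g : L ≃ₐ[K] L} (hg : ∀ x, x ∈ Subgroup.zpowers g)
    {x : L} (hx : Algebra.norm K x = 1) : ∃ y : Lˣ, (y : L) / g y = x := by
  have hx0 : x ≠ 0 := by
    rintro rfl
    rw [Algebra.norm_zero] at hx
    exact zero_ne_one hx
  set xu : Lˣ := Units.mk0 x hx0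
  have hxu : Algebra.norm K (xu : L) = 1 := hx
  have hex : ∀ σ : L ≃ₐ[K] L, ∃ i : ℕ, g ^ i = σ := fun σ => by
    have := hg σ
    rw [← mem_powers_iff_mem_zpowers] at this
    exact this
  choose e he using hex
  have hcoc : IsMulCocycle₁ (fun σ => Gamma_F g xu (e σ)) := by
    intro σ τ
    show Gamma_F g xu (e (σ * τ)) = σ • Gamma_F g xu (e τ) * Gamma_F g xu (e σ)
    have h1 : g ^ (e (σ * τ)) = g ^ (e σ + e τ) := by rw [he, pow_add, he, he]
    rw [Gamma_F_congr hg xu hxu h1, Gamma_F_add, he, mul_comm]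
  obtain ⟨β, hβ⟩ := isMulCoboundary₁_of_isMulCocycle₁_of_aut_to_units _ hcoc
  have h1 := hβ g
  have h2 : Gamma_F g xu (e g) = xu := by
    have : g ^ (e g) = g ^ 1 := by rw [he, pow_one]
    rw [Gamma_F_congr hg xu hxu this]
    unfold Gamma_F
    rw [Finset.prod_range_one, pow_zero, one_smul]
  simp only [h2] at h1
  refine ⟨β⁻¹, ?_⟩
  have h3 := congrArg Units.val h1
  rw [Units.val_div_eq_div_val, AlgEquiv.smul_units_def] at h3
  simp only [Units.coe_map, MonoidHom.coe_coe] at h3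
  rw [Units.val_inv_eq_inv_val, map_inv₀, inv_div_inv]
  exact h3

end H90

section H90int

variable {K L : Type*} [Field K] [Field L] [Algebra K L] [FiniteDimensional K L] [IsGalois K L]
variable {A B : Type*} [CommRing A] [CommRing B] [Algebra A B] [Algebra A L] [Algebra A K]
variable [Algebra B L] [IsScalarTower A B L] [IsScalarTower A K L] [IsFractionRing A K] [IsDomain A]
variable [IsIntegralClosure B A L]

open scoped nonZeroDivisors

/-- universe polymorphic copy of `groupCohomology.exists_mul_galRestrict_of_norm_eq_one`. -/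
theorem Gamma_exists_mul_galRestrict {g : L ≃ₐ[K] L} (hg : ∀ x, x ∈ Subgroup.zpowers g) {η : B}
    (hη : Algebra.norm K (algebraMap B L η) = 1) :
    ∃ ε : B, ε ≠ 0 ∧ η * galRestrict A K L B g ε = ε := by
  have : Module.IsTorsionFree A L := by
    rw [Module.isTorsionFree_iff_algebraMap_injective, IsScalarTower.algebraMap_eq A K L]
    exact (algebraMap K L).injective.comp (IsFractionRing.injective A K)
  have : IsLocalization (Algebra.algebraMapSubmonoid B A⁰) L :=
    IsIntegralClosure.isLocalization A K L B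
  obtain ⟨ε, hε⟩ := Gamma_hilbert90 hg hη
  obtain ⟨a, b, h⟩ := IsLocalization.exists_mk'_eq (Algebra.algebraMapSubmonoid B A⁰) ε.1
  obtain ⟨t, ht, ht'⟩ := b.prop
  have : t • IsLocalization.mk' L a b = algebraMap _ _ a := by
    rw [Algebra.smul_def, IsScalarTower.algebraMap_apply A B L, ht', IsLocalization.mk'_spec']
  refine ⟨a, ?_, ?_⟩
  · rintro rfl
    simp only [IsLocalization.mk'_zero, _root_.map_zero, div_zero, ← h] at hε
    rw [← hε, Algebra.norm_zero] at hη
    exact zero_ne_one hη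
  · replace hε := hε.symm
    rw [← h, eq_div_iff_mul_eq] at hε
    · replace hε := congr_arg (t • ·) hε
      rw [Algebra.smul_def, mul_left_comm, ← Algebra.smul_def t, ← g.toAlgHom_apply,
        ← AlgHom.map_smul_of_tower, this] at hε
      apply IsIntegralClosure.algebraMap_injective B A L
      rw [map_mul, ← hε]
      congr 1
      exact algebraMap_galRestrictHom_apply A K L B g a
    · intro e
      rw [(map_eq_zero _).mp e, zero_div] at hε
      rw [hε, Algebra.norm_zero] at hη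
      exact zero_ne_one hη

end H90int

variable {K : Type*} [Field K] [NumberField K] {p : ℕ} [Fact p.Prime]
  [IsCyclotomicExtension {p} ℚ K]
  {r : ℕ} [Fact r.Prime] {F : Type*} [Field F] [NumberField F] [Algebra K F]
  [IsCyclotomicExtension {r} K F]

theorem exists_gamma (hrp : r ≠ p) (hr1 : p ∣ r - 1) {ζ : 𝓞 K} (hζ : IsPrimitiveRoot ζ p)
    {ζr : 𝓞 F} (hζr : IsPrimitiveRoot ζr r) :
    ∃ (τ : 𝓞 F ≃ₐ[𝓞 K] 𝓞 F) (g : ℕ) (γ : 𝓞 F) (x : 𝓞 K) (u : (𝓞 F)ˣ),
      γ ≠ 0 ∧ τ ζr = ζr ^ g ∧ (1 - algebraMap (𝓞 K) (𝓞 F) ζ * ζr) * τ γ = γ ∧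
      algebraMap (𝓞 K) (𝓞 F) x = u * γ ^ (r - 1) := by
  have : NeZero r := ⟨(Fact.out : r.Prime).ne_zero⟩
  have : IsGalois K F := IsCyclotomicExtension.isGalois {r} K F
  have : FiniteDimensional K F := IsCyclotomicExtension.finiteDimensional {r} K F
  have hirr : Irreducible (Polynomial.cyclotomic r K) := irreducible_cyclotomic (p := p) hrp
  let e : (F ≃ₐ[K] F) ≃* (ZMod r)ˣ := IsCyclotomicExtension.autEquivPow F hirr
  have : IsCyclic (F ≃ₐ[K] F) := e.symm.isCyclic.mp inferInstance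
  have hcard : Fintype.card (F ≃ₐ[K] F) = r - 1 := by
    rw [Fintype.card_congr e.toEquiv, ZMod.card_units]
  obtain ⟨t, ht⟩ := IsCyclic.exists_generator (α := F ≃ₐ[K] F)
  set η : 𝓞 F := 1 - algebraMap (𝓞 K) (𝓞 F) ζ * ζr with hηdef
  have hηn : Algebra.norm K (algebraMap (𝓞 F) F η) = 1 := by
    have h1 : IsPrimitiveRoot (algebraMap (𝓞 K) K ζ) p :=
      hζ.map_of_injective (RingOfIntegers.coe_injective)
    have h2 : IsPrimitiveRoot (algebraMap (𝓞 F) F ζr) r :=
      hζr.map_of_injective (RingOfIntegers.coe_injective)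
    have h3 := norm_eq_one hrp hr1 h1 h2
    rw [← h3, hηdef, map_sub, map_one, map_mul]
    rfl
  obtain ⟨γ, hγ0, hγ⟩ := Gamma_exists_mul_galRestrict (A := 𝓞 K) (B := 𝓞 F) ht hηn
  set R := galRestrict (𝓞 K) K F (𝓞 F) with hR
  have hηu : IsUnit η := by
    rw [← RingOfIntegers.isUnit_norm_of_isGalois (K := K)]
    have : RingOfIntegers.norm K η = 1 := by
      apply RingOfIntegers.ext
      rw [RingOfIntegers.coe_norm]
      exact hηn
    rw [this]
    exact isUnit_one
  obtain ⟨ηu, hηu⟩ := hηu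
  -- every conjugate of `γ` is a unit times `γ`
  have hpow : ∀ k : ℕ, ∃ v : (𝓞 F)ˣ, R (t ^ k) γ = v * γ := by
    intro k
    induction k with
    | zero => exact ⟨1, by simp⟩
    | succ k ih =>
      obtain ⟨v, hv⟩ := ih
      refine ⟨Units.map ((R (t ^ k) : 𝓞 F ≃ₐ[𝓞 K] 𝓞 F) : 𝓞 F →* 𝓞 F) ηu⁻¹ * v, ?_⟩
      have h1 : R t γ = (ηu⁻¹ : (𝓞 F)ˣ) * γ := by
        rw [Units.eq_inv_mul_iff_mul_eq, hηu]
        exact hγ
      rw [pow_succ, map_mul, AlgEquiv.mul_apply, h1, map_mul, hv]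
      simp only [Units.val_mul, Units.coe_map, MonoidHom.coe_coe]
      ring
  have hall : ∀ σ : F ≃ₐ[K] F, ∃ v : (𝓞 F)ˣ, R σ γ = v * γ := by
    intro σ
    have := ht σ
    rw [← mem_powers_iff_mem_zpowers] at this
    obtain ⟨k, rfl⟩ := this
    exact hpow k
  choose v hv using hall
  obtain ⟨g, -, hg⟩ := hζr.eq_pow_of_pow_eq_one (ξ := R t ζr)
    (by rw [← map_pow, hζr.pow_eq_one, map_one])
  refine ⟨R t, g, γ, RingOfIntegers.norm K γ, ∏ σ, v σ, hγ0, hg.symm, hγ, ?_⟩
  apply RingOfIntegers.ext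
  rw [RingOfIntegers.coe_algebraMap_norm, Algebra.norm_eq_prod_automorphisms]
  have h1 : ∀ σ : F ≃ₐ[K] F, σ (γ : F) = algebraMap (𝓞 F) F (v σ * γ) := by
    intro σ
    rw [← hv σ, hR, algebraMap_galRestrict_apply]
  simp only [h1]
  rw [← map_prod, Finset.prod_mul_distrib, Finset.prod_const, Finset.card_univ, hcard,
    Units.coe_prod]

end Fermat.Agent.S14.Th
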